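import Mathlib

/-!
# Row LT, tower T7, leaf T7.L2.3.5.7 `SD534.SubSeqC` (helper497, spare): MATHLIB-ONLY CORE

OFF-MAIN.  Every linear subspace `R` of a separable Hilbert space has a sequence `g` of members
of `R`, pairwise orthogonal, each of norm `1` or `0`, which is complete in `R` (Parseval):
Gram--Schmidt on a dense sequence of `R`.  Then the same for a space of bounded measurable
functions on a finite measure space with countably generated `σ`-algebra.
-/

set_option autoImplicit false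

open MeasureTheory
open scoped ComplexConjugate InnerProductSpace
open InnerProductSpace

noncomputable section

namespace Fermat.Agent.LT.T7.H497

section Hilbert

variable {E : Type*} [NormedAddCommGroup E] [InnerProductSpace ℂ E] [CompleteSpace E]

/-- Parseval for an orthonormal family and a vector of the closed span. -/
theorem parseval_of_mem_closure497 {ι : Type*} (v : ι → E) (hv : Orthonormal ℂ v) (x : E)
    (hx : x ∈ (Submodule.span ℂ (Set.range v)).topologicalClosure) :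
    HasSum (fun i => ‖⟪v i, x⟫_ℂ‖ ^ 2) (‖x‖ ^ 2) := by
  classical
  set Kc : Submodule ℂ E := (Submodule.span ℂ (Set.range v)).topologicalClosure with hKc
  have hmem : ∀ i, v i ∈ Kc := fun i =>
    Submodule.le_topologicalClosure _ (Submodule.subset_span ⟨i, rfl⟩)
  have hclosed : IsClosed (Kc : Set E) := Submodule.isClosed_topologicalClosure _
  have : CompleteSpace Kc := hclosed.completeSpace_coe
  set w : ι → Kc := fun i => ⟨v i, hmem i⟩ with hw
  have hwo : Orthonormal ℂ w := by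
    constructor
    · intro i
      show ‖(⟨v i, hmem i⟩ : Kc)‖ = 1
      rw [Submodule.coe_norm]
      exact hv.1 i
    · intro i j hij
      show ⟪(⟨v i, hmem i⟩ : Kc), (⟨v j, hmem j⟩ : Kc)⟫_ℂ = 0
      rw [Submodule.coe_inner]
      exact hv.2 hij
  have hsp : ⊤ ≤ (Submodule.span ℂ (Set.range w)).topologicalClosure := by
    intro y _
    rw [← SetLike.mem_coe, Submodule.topologicalClosure_coe, closure_subtype]
    have himg : ((↑) : Kc → E) '' ((Submodule.span ℂ (Set.range w) : Submodule ℂ Kc) : Set Kc)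
        = (Submodule.span ℂ (Set.range v) : Set E) := by
      have h1 : Submodule.map Kc.subtype (Submodule.span ℂ (Set.range w))
          = Submodule.span ℂ (Set.range v) := by
        rw [Submodule.map_span]
        congr 1
        ext z
        constructor
        · rintro ⟨_, ⟨i, rfl⟩, rfl⟩
          exact ⟨i, rfl⟩
        · rintro ⟨i, rfl⟩
          exact ⟨w i, ⟨i, rfl⟩, rfl⟩
      rw [← h1]
      rfl
    rw [himg]
    exact y.2
  let b : HilbertBasis ι ℂ Kc := HilbertBasis.mk hwo hsp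
  have hb : ∀ i, ((b i : Kc) : E) = v i := by
    intro i
    have : (b : ι → Kc) = w := HilbertBasis.coe_mk hwo hsp
    rw [this]
  have h1 := b.hasSum_inner_mul_inner (⟨x, hx⟩ : Kc) (⟨x, hx⟩ : Kc)
  have h2 := (Complex.reCLM.hasSum h1)
  have h3 : (fun i => Complex.reCLM (⟪(⟨x, hx⟩ : Kc), b i⟫_ℂ * ⟪b i, (⟨x, hx⟩ : Kc)⟫_ℂ))
      = fun i => ‖⟪v i, x⟫_ℂ‖ ^ 2 := by
    funext i
    rw [Submodule.coe_inner, Submodule.coe_inner, hb i]
    show (⟪x, v i⟫_ℂ * ⟪v i, x⟫_ℂ).re = _
    rw [← inner_conj_symm x (v i), Complex.conj_mul', ← Complex.ofReal_pow, Complex.ofReal_re]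
  have h4 : Complex.reCLM (⟪(⟨x, hx⟩ : Kc), (⟨x, hx⟩ : Kc)⟫_ℂ) = ‖x‖ ^ 2 := by
    rw [Submodule.coe_inner]
    exact inner_self_eq_norm_sq (𝕜 := ℂ) x
  rw [h3, h4] at h2
  exact h2

/-- **Gram--Schmidt in a subspace of a separable Hilbert space.** -/
theorem exists_orthoSeq_hilbert497 [TopologicalSpace.SeparableSpace E] (R : Submodule ℂ E) :
    ∃ g : ℕ → E, (∀ n, g n ∈ R) ∧ (∀ n m, n ≠ m → ⟪g n, g m⟫_ℂ = 0) ∧
      (∀ n, ‖g n‖ = 1 ∨ g n = 0) ∧
      ∀ x ∈ R, HasSum (fun n => ‖⟪g n, x⟫_ℂ‖ ^ 2) (‖x‖ ^ 2) := by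
  classical
  have : SecondCountableTopology E := UniformSpace.secondCountable_of_separable E
  obtain ⟨u, hu⟩ := TopologicalSpace.exists_dense_seq R
  set u' : ℕ → E := fun n => (u n : E) with hu'
  set g : ℕ → E := gramSchmidtNormed ℂ u' with hg
  have hu'R : ∀ n, u' n ∈ R := fun n => (u n).2
  have hgs : ∀ n, gramSchmidt ℂ u' n ∈ R := by
    intro n
    have h1 := gramSchmidt_mem_span ℂ u' (le_refl n)
    refine (Submodule.span_le.2 ?_) h1
    rintro _ ⟨k, _, rfl⟩
    exact hu'R k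
  have hgR : ∀ n, g n ∈ R := fun n => R.smul_mem _ (hgs n)
  refine ⟨g, hgR, ?_, ?_, ?_⟩
  · intro n m hnm
    show ⟪gramSchmidtNormed ℂ u' n, gramSchmidtNormed ℂ u' m⟫_ℂ = 0
    unfold gramSchmidtNormed
    rw [inner_smul_left, inner_smul_right, gramSchmidt_orthogonal ℂ u' hnm, mul_zero, mul_zero]
  · intro n
    by_cases h0 : g n = 0
    · exact Or.inr h0
    · exact Or.inl (gramSchmidtNormed_unit_length' h0)
  · intro x hx
    -- the orthonormal family of the nonzero members
    set I : Set ℕ := {i | gramSchmidtNormed ℂ u' i ≠ 0} with hI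
    have hv : Orthonormal ℂ (fun i : I => gramSchmidtNormed ℂ u' i) :=
      gramSchmidtNormed_orthonormal' u'
    -- `x` is in the closed span
    have hspan : Submodule.span ℂ (Set.range (fun i : I => gramSchmidtNormed ℂ u' i))
        = Submodule.span ℂ (Set.range u') := by
      rw [← span_gramSchmidt ℂ u', ← span_gramSchmidtNormed_range]
      apply le_antisymm
      · apply Submodule.span_mono
        rintro _ ⟨i, rfl⟩
        exact ⟨i.1, rfl⟩
      · apply Submodule.span_le.2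
        rintro _ ⟨n, rfl⟩
        by_cases h0 : gramSchmidtNormed ℂ u' n = 0
        · rw [h0]
          exact Submodule.zero_mem _
        · exact Submodule.subset_span ⟨⟨n, h0⟩, rfl⟩
    have hxcl : x ∈ (Submodule.span ℂ
        (Set.range (fun i : I => gramSchmidtNormed ℂ u' i))).topologicalClosure := by
      rw [hspan, ← SetLike.mem_coe, Submodule.topologicalClosure_coe]
      have h1 : (⟨x, hx⟩ : R) ∈ closure (Set.range u) := hu.closure_range ▸ Set.mem_univ _
      rw [closure_subtype] at h1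
      refine closure_mono ?_ h1
      rintro _ ⟨_, ⟨n, rfl⟩, rfl⟩
      exact Submodule.subset_span ⟨n, rfl⟩
    have h2 := parseval_of_mem_closure497 _ hv x hxcl
    have hsupp : Function.support (fun n => ‖⟪g n, x⟫_ℂ‖ ^ 2) ⊆ I := by
      intro n hn
      by_contra h0
      apply hn
      have : g n = 0 := by
        by_contra h1
        exact h0 h1
      show ‖⟪g n, x⟫_ℂ‖ ^ 2 = 0
      rw [this, inner_zero_left, norm_zero]
      norm_num
    exact (hasSum_subtype_iff_of_support_subset hsupp).1 h2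

end Hilbert

section L2

variable {X : Type*} [MeasurableSpace X] [MeasurableSpace.CountablyGenerated X]

omit [MeasurableSpace.CountablyGenerated X] in
/-- The `L²` inner product of the classes of two square integrable functions. -/
theorem inner_toLp497 (ν : Measure X) (f g : X → ℂ) (hf : MemLp f 2 ν) (hg : MemLp g 2 ν) :
    ⟪hg.toLp g, hf.toLp f⟫_ℂ = ∫ x, f x * conj (g x) ∂ν := by
  rw [MeasureTheory.L2.inner_def]
  apply integral_congr_ae
  filter_upwards [hf.coeFn_toLp, hg.coeFn_toLp] with x hx1 hx2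
  rw [hx1, hx2]
  simp

/-- **Gram--Schmidt in a space of bounded measurable functions** on a finite measure space with
countably generated `σ`-algebra. -/
theorem exists_orthoSeq_fn497 (ν : Measure X) [IsFiniteMeasure ν] (S : Submodule ℂ (X → ℂ))
    (hmeas : ∀ f ∈ S, AEStronglyMeasurable f ν) (hbdd : ∀ f ∈ S, ∃ C : ℝ, ∀ x, ‖f x‖ ≤ C) :
    ∃ p : ℕ → X → ℂ, (∀ n, p n ∈ S) ∧
      (∀ n m, n ≠ m → ∫ x, p n x * conj (p m x) ∂ν = 0) ∧
      (∀ n, ∫ x, p n x * conj (p n x) ∂ν = 1 ∨ p n = 0) ∧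
      ∀ f ∈ S, HasSum (fun n => ‖∫ x, f x * conj (p n x) ∂ν‖ ^ 2)
        (∫ x, f x * conj (f x) ∂ν).re := by
  classical
  have hL : ∀ f ∈ S, MemLp f 2 ν := by
    intro f hf
    obtain ⟨C, hC⟩ := hbdd f hf
    exact MemLp.of_bound (hmeas f hf) C (Filter.Eventually.of_forall hC)
  let T : S →ₗ[ℂ] Lp ℂ 2 ν :=
    { toFun := fun f => (hL f.1 f.2).toLp f.1
      map_add' := fun f g => MemLp.toLp_add (hL f.1 f.2) (hL g.1 g.2)
      map_smul' := fun c f => MemLp.toLp_const_smul c (hL f.1 f.2) }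
  have hT : ∀ (f : X → ℂ) (hf : f ∈ S), T ⟨f, hf⟩ = (hL f hf).toLp f := fun f hf => rfl
  have : Fact ((2 : ENNReal) ≠ ⊤) := ⟨ENNReal.ofNat_ne_top⟩
  have : SecondCountableTopology (Lp ℂ 2 ν) := MeasureTheory.Lp.SecondCountableTopology
  have : TopologicalSpace.SeparableSpace (Lp ℂ 2 ν) := inferInstance
  obtain ⟨g, hgR, hgo, hgn, hgp⟩ := exists_orthoSeq_hilbert497 (LinearMap.range T)
  have hex : ∀ n, ∃ f : X → ℂ, ∃ hf : f ∈ S, (g n = 0 → f = 0) ∧ T ⟨f, hf⟩ = g n := by
    intro n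
    by_cases h0 : g n = 0
    · refine ⟨0, S.zero_mem, fun _ => rfl, ?_⟩
      rw [h0]
      exact map_zero T
    · obtain ⟨f, hf⟩ := hgR n
      exact ⟨f.1, f.2, fun h => absurd h h0, hf⟩
  choose p hpS hp0 hpT using hex
  have hin : ∀ (f f' : X → ℂ) (hf : f ∈ S) (hf' : f' ∈ S),
      ∫ x, f x * conj (f' x) ∂ν = ⟪T ⟨f', hf'⟩, T ⟨f, hf⟩⟫_ℂ := by
    intro f f' hf hf'
    rw [hT, hT, inner_toLp497]
  refine ⟨p, hpS, ?_, ?_, ?_⟩
  · intro n m hnm
    rw [hin _ _ (hpS n) (hpS m), hpT, hpT]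
    exact hgo m n (Ne.symm hnm)
  · intro n
    rcases hgn n with h1 | h0
    · left
      rw [hin _ _ (hpS n) (hpS n), hpT, inner_self_eq_norm_sq_to_K, h1]
      simp
    · right
      exact hp0 n h0
  · intro f hf
    have h1 := hgp (T ⟨f, hf⟩) ⟨⟨f, hf⟩, rfl⟩
    have h2 : (fun n => ‖∫ x, f x * conj (p n x) ∂ν‖ ^ 2)
        = fun n => ‖⟪g n, T ⟨f, hf⟩⟫_ℂ‖ ^ 2 := by
      funext n
      rw [hin _ _ hf (hpS n), hpT]
    have h3 : (∫ x, f x * conj (f x) ∂ν).re = ‖T ⟨f, hf⟩‖ ^ 2 := by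
      rw [hin _ _ hf hf]
      exact inner_self_eq_norm_sq (𝕜 := ℂ) _
    rw [h2, h3]
    exact h1

end L2

end Fermat.Agent.LT.T7.H497

end
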